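/-
GATE-M / S41-B5-UQ (helper85), generic half: disjoint sums of coset systems (helper91's
`GM/B/System.lean` calculus) and single-representative systems built from a relation.

* `CosetSys.sum S S'` with `op_sum : (S.sum S').op A φ = S.op A φ + S'.op A φ`;
* `CosetSys.ofRel` : a single representative `a` with `a * emb g = emb (c g) * a` for a FUNCTION `c`
  (multiplicativity of `c` follows from injectivity of `emb`), `ofRel_op_apply`;
* `CosetSys.idSys z` : the identity operator, represented by a central element `z`.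
-/
import Mathlib
import Fermat.Agent.GM.B.System

set_option autoImplicit false

namespace Fermat.Agent.GM.B5

open Fermat.Agent.GM.B

variable {H G : Type*} [Group H] [Group G] {emb : H →* G} {Γ₁ Γ₂ : Subgroup H}

/-- the disjoint sum of two coset systems -/
def sumSys (S S' : CosetSys emb Γ₁ Γ₂) : CosetSys emb Γ₁ Γ₂ where
  ι := S.ι ⊕ S'.ι
  a := Sum.elim S.a S'.a
  σ g := Equiv.sumCongr (S.σ g) (S'.σ g)
  c g := Sum.elim (S.c g) (S'.c g)
  rel g i := by
    rcases i with i | i
    · exact S.rel g i
    · exact S'.rel g i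
  hσ g h i := by
    rcases i with i | i
    · show Sum.inl (S.σ (g * h) i) = Sum.inl (S.σ h (S.σ g i))
      rw [S.hσ]
    · show Sum.inr (S'.σ (g * h) i) = Sum.inr (S'.σ h (S'.σ g i))
      rw [S'.hσ]
  hc g h i := by
    rcases i with i | i
    · exact S.hc g h i
    · exact S'.hc g h i

theorem sumSys_op (S S' : CosetSys emb Γ₁ Γ₂) {A : Type*} [AddCommGroup A]
    (φ : Additive Γ₁ →+ A) : (sumSys S S').op A φ = S.op A φ + S'.op A φ := by
  refine AddMonoidHom.ext fun g => ?_
  obtain ⟨g, rfl⟩ : ∃ g' : Γ₂, Additive.ofMul g' = g := ⟨Additive.toMul g, rfl⟩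
  rw [AddMonoidHom.add_apply, CosetSys.op_apply, CosetSys.op_apply, CosetSys.op_apply]
  exact Fintype.sum_sum_type _

/-- a single-representative system from a function `c` satisfying the relation -/
def ofRel (hemb : Function.Injective emb) (a : G) (c : Γ₂ → Γ₁)
    (h : ∀ g : Γ₂, a * emb (g : H) = emb ((c g : Γ₁) : H) * a) : CosetSys emb Γ₁ Γ₂ where
  ι := Unit
  a _ := a
  σ _ := 1
  c g _ := c g
  rel g _ := h g
  hσ _ _ _ := rfl
  hc g g' _ := by
    have h1 := h (g * g')
    rw [Subgroup.coe_mul, map_mul, ← mul_assoc, h g, mul_assoc, h g', ← mul_assoc] at h1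
    have h2 := mul_right_cancel h1
    rw [← map_mul] at h2
    exact Subtype.ext (hemb h2).symm

theorem ofRel_op_apply (hemb : Function.Injective emb) (a : G) (c : Γ₂ → Γ₁)
    (h : ∀ g : Γ₂, a * emb (g : H) = emb ((c g : Γ₁) : H) * a)
    {A : Type*} [AddCommGroup A] (φ : Additive Γ₁ →+ A) (g : Γ₂) :
    (ofRel hemb a c h).op A φ (Additive.ofMul g) = φ (Additive.ofMul (c g)) := by
  rw [CosetSys.op_apply]
  show ∑ _i : Unit, φ (Additive.ofMul (c g)) = _
  simp

/-- the identity operator, represented by a central element -/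
def idSys (emb : H →* G) (Γ : Subgroup H) (z : G) (hz : ∀ x : G, z * x = x * z) :
    CosetSys emb Γ Γ :=
  CosetSys.single emb z (MonoidHom.id Γ) (fun _ => hz _)

theorem idSys_op (Γ : Subgroup H) (z : G) (hz : ∀ x : G, z * x = x * z)
    {A : Type*} [AddCommGroup A] (φ : Additive Γ →+ A) : (idSys emb Γ z hz).op A φ = φ := by
  refine AddMonoidHom.ext fun g => ?_
  obtain ⟨g, rfl⟩ : ∃ g' : Γ, Additive.ofMul g' = g := ⟨Additive.toMul g, rfl⟩
  exact CosetSys.single_op_apply _ _ _ φ g

end Fermat.Agent.GM.B5
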