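/-
GATE-M / S41-B5-UQ (helper85): `U_q² = 1` on `ker β`.
-/
import Mathlib
import Fermat.Agent.GM.B5.Sum
import Fermat.Agent.GM.B.Main
import Fermat.Agent.S16_helper49.HeckeGen
import Fermat.Agent.GJ.J2.Lattice

set_option autoImplicit false
set_option linter.unusedSectionVars false

open scoped MatrixGroups
open CongruenceSubgroup Matrix Matrix.SpecialLinearGroup ModularCurve.Period
open P2MW.S_ModularForm_heckeT_slash_eq_self_of_mem_Gamma0.ModularForm.HeckeSlashInvariance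
open P2MW.S_ModularForm_heckeT_slash_eq_self_of_mem_Gamma0.ModularForm
open Fermat.Agent.S16_helper49
open Fermat.Agent.GM.Amalgam
open Fermat.Agent.GM.B
open scoped OnePoint

namespace Fermat.Agent.GM.B5

/-! ### the coset system of `U_ℓ` -/

section USys

variable {M ℓ : ℕ} [NeZero ℓ]

/-- **the coset system of `U_ℓ`** at level `M` (`ℓ ∣ M`), helper49's `cU`/`sigU` -/
noncomputable def uSys (hℓM : ℓ ∣ M) : CosetSys embR (Gamma0 M) (Gamma0 M) where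
  ι := ZMod ℓ
  a x := heckeMatrix ℓ x.val
  σ g := sigU hℓM g
  c := cU hℓM
  rel g x := cU_rel hℓM g x
  hσ g h x := sigU_mul hℓM g h x
  hc g h x := cU_mul hℓM g h x

theorem uSys_op (hℓM : ℓ ∣ M) (A : Type*) [AddCommGroup A] :
    (uSys hℓM).op A = cohU hℓM A := by
  refine AddMonoidHom.ext fun φ => AddMonoidHom.ext fun g => ?_
  rfl

end USys

/-! ### the Möbius action of `Γ₀(N q)` on `P¹(𝔽_q)` -/

section Moebius

variable {N q : ℕ} [Fact q.Prime]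

theorem dvd_mul_self_right : q ∣ N * q := Dvd.intro_left N rfl

theorem redMatrix_smul_infty (g : Gamma0 (N * q)) :
    redMatrix q (g : SL(2, ℤ)) • (∞ : OnePoint (ZMod q)) = ∞ := by
  rw [OnePoint.smul_infty_eq_self_iff, redMatrix_apply_one_zero]
  exact cast_eq_zero_of_mem dvd_mul_self_right g

theorem redMatrix_smul_coe (g : Gamma0 (N * q)) (x : ZMod q) :
    redMatrix q (g : SL(2, ℤ)) • ((x : ZMod q) : OnePoint (ZMod q))
      = ((sigU (dvd_mul_self_right (N := N) (q := q)) g x : ZMod q) : OnePoint (ZMod q)) := by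
  have hc : ((((g : SL(2, ℤ)) 1 0 : ℤ)) : ZMod q) = 0 :=
    cast_eq_zero_of_mem dvd_mul_self_right g
  have hu := unit_of_apply_one_zero_eq_zero (g : SL(2, ℤ)) hc
  have hne : ((((g : SL(2, ℤ)) 0 0 : ℤ)) : ZMod q) ≠ 0 := by
    intro h
    rw [h, zero_mul] at hu
    exact zero_ne_one hu
  rw [OnePoint.smul_some_eq_ite, redMatrix_apply_one_zero, redMatrix_apply_one_one,
    redMatrix_apply_zero_zero, redMatrix_apply_zero_one, hc, zero_mul, zero_add, if_neg hne]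
  congr 1
  unfold sigU
  rw [affinePerm_apply, div_eq_iff hne]
  linear_combination (-(((((g : SL(2, ℤ)) 0 1 : ℤ)) : ZMod q)
    + ((((g : SL(2, ℤ)) 1 1 : ℤ)) : ZMod q) * x)) * hu

end Moebius

/-! ### the Atkin–Lehner system -/

section AL

variable (N q : ℕ) [Fact q.Prime] (b₀ d₀ : ℤ) (hbd : (q : ℤ) * d₀ - N * b₀ = 1)

/-- `γ₁ = (1, b₀; N, q d₀)` -/
def gamW : SL(2, ℤ) := mkZ 1 b₀ (N : ℤ) ((q : ℤ) * d₀) (by linarith)

theorem gamW_mem : gamW N q b₀ d₀ hbd ∈ Gamma0 N := mem_Gamma0_of_dvd (by simp [gamW])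

/-- the Atkin–Lehner matrix `W = γ₁ δ = (q, b₀; N q, q d₀)` -/
noncomputable def wMat : GL (Fin 2) ℝ := embR (gamW N q b₀ d₀ hbd) * dlt q

/-- `δ γ₁ δ = q γ₀` -/
theorem dlt_gamW_dlt :
    dlt q * embR (gamW N q b₀ d₀ hbd) * dlt q = zq q * embR (gamC N q b₀ d₀ hbd) := by
  have hq : q ≠ 0 := q_ne_zero'
  ext a b
  fin_cases a <;> fin_cases b <;>
    (simp [hq, zq, Matrix.mul_apply, Fin.sum_univ_two, gamW, gamC, Matrix.natCast_apply,
      Matrix.vecMul, dotProduct]; try ring)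

/-- `W = q δ⁻¹ γ₀` -/
theorem wMat_eq :
    wMat N q b₀ d₀ hbd = zq q * (dlt q)⁻¹ * embR (gamC N q b₀ d₀ hbd) := by
  have h := dlt_gamW_dlt N q b₀ d₀ hbd
  calc wMat N q b₀ d₀ hbd
      = (dlt q)⁻¹ * (dlt q * embR (gamW N q b₀ d₀ hbd) * dlt q) := by
        unfold wMat; group
    _ = (dlt q)⁻¹ * (zq q * embR (gamC N q b₀ d₀ hbd)) := by rw [h]
    _ = zq q * (dlt q)⁻¹ * embR (gamC N q b₀ d₀ hbd) := by
        rw [← mul_assoc, ← zq_comm]

/-- `W g W⁻¹` as an element of `Γ₀(N)` -/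
noncomputable def cWval (g : Gamma0 (N * q)) : Gamma0 N :=
  ⟨gamW N q b₀ d₀ hbd, gamW_mem N q b₀ d₀ hbd⟩ * degenDelta N q g *
    (⟨gamW N q b₀ d₀ hbd, gamW_mem N q b₀ d₀ hbd⟩ : Gamma0 N)⁻¹

theorem wMat_rel_val (g : Gamma0 (N * q)) :
    wMat N q b₀ d₀ hbd * embR (g : SL(2, ℤ))
      = embR ((cWval N q b₀ d₀ hbd g : Gamma0 N) : SL(2, ℤ)) * wMat N q b₀ d₀ hbd := by
  have h := dlt_rel_degenDelta (N := N) (q := q) g
  unfold wMat cWval
  simp only [Subgroup.coe_mul, Subgroup.coe_inv, map_mul, map_inv]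
  rw [mul_assoc, h]
  group

theorem cWval_mem (g : Gamma0 (N * q)) :
    ((cWval N q b₀ d₀ hbd g : Gamma0 N) : SL(2, ℤ)) ∈ Gamma0 (N * q) := by
  refine mem_Gamma0_mul_of_dlt_rel _
    (gamC N q b₀ d₀ hbd * (g : SL(2, ℤ)) * (gamC N q b₀ d₀ hbd)⁻¹) ?_ ?_
  · refine (Gamma0 N).mul_mem ((Gamma0 N).mul_mem (gamC_mem N q b₀ d₀ hbd) ?_)
      ((Gamma0 N).inv_mem (gamC_mem N q b₀ d₀ hbd))
    rw [← degenOne_coe (N := N) (q := q) g]
    exact SetLike.coe_mem _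
  · have h1 := wMat_rel_val N q b₀ d₀ hbd g
    have h2 : embR ((cWval N q b₀ d₀ hbd g : Gamma0 N) : SL(2, ℤ))
        = wMat N q b₀ d₀ hbd * embR (g : SL(2, ℤ)) * (wMat N q b₀ d₀ hbd)⁻¹ := by
      rw [eq_mul_inv_iff_mul_eq]; exact h1.symm
    rw [h2, wMat_eq, map_mul, map_mul, map_inv]
    have hz : ∀ X : GL (Fin 2) ℝ, zq q * X * (zq q)⁻¹ = X := fun X => by
      rw [zq_comm, mul_inv_cancel_right]
    calc dlt q * (zq q * (dlt q)⁻¹ * embR (gamC N q b₀ d₀ hbd) * embR (g : SL(2, ℤ)) *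
          (zq q * (dlt q)⁻¹ * embR (gamC N q b₀ d₀ hbd))⁻¹)
        = dlt q * (zq q * ((dlt q)⁻¹ * embR (gamC N q b₀ d₀ hbd) * embR (g : SL(2, ℤ)) *
            (embR (gamC N q b₀ d₀ hbd))⁻¹ * dlt q) * (zq q)⁻¹) := by group
      _ = _ := by rw [hz]; group

/-- conjugation by `W` on `Γ₀(N q)` -/
noncomputable def cW (g : Gamma0 (N * q)) : Gamma0 (N * q) :=
  ⟨((cWval N q b₀ d₀ hbd g : Gamma0 N) : SL(2, ℤ)), cWval_mem N q b₀ d₀ hbd g⟩

theorem wMat_rel (g : Gamma0 (N * q)) :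
    wMat N q b₀ d₀ hbd * embR (g : SL(2, ℤ))
      = embR ((cW N q b₀ d₀ hbd g : Gamma0 (N * q)) : SL(2, ℤ)) * wMat N q b₀ d₀ hbd :=
  wMat_rel_val N q b₀ d₀ hbd g

/-- **the Atkin–Lehner coset system** `w : Hom(Γ₀(N q), A) → Hom(Γ₀(N q), A)`,
`(w ψ)(g) = ψ (W g W⁻¹)` -/
noncomputable def wSys : CosetSys embR (Gamma0 (N * q)) (Gamma0 (N * q)) :=
  ofRel embR_injective (wMat N q b₀ d₀ hbd) (cW N q b₀ d₀ hbd) (wMat_rel N q b₀ d₀ hbd)

end AL

/-! ### the two double-coset identities -/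

section Identities

variable {N q : ℕ} [Fact q.Prime] (hqN : ¬ q ∣ N) (b₀ d₀ : ℤ)
  (hbd : (q : ℤ) * d₀ - N * b₀ = 1)

/-- index bijection for `res ∘ cores = 1 + U_q ∘ w` -/
def eA (q : ℕ) : Unit ⊕ (Unit × ZMod q) ≃ OnePoint (ZMod q) × Unit where
  toFun := Sum.elim (fun _ => (∞, ())) (fun p => ((p.2 : OnePoint (ZMod q)), ()))
  invFun p := p.1.elim (Sum.inl ()) (fun x => Sum.inr ((), x))
  left_inv := by
    rintro (⟨⟩ | ⟨⟨⟩, x⟩) <;> rfl
  right_inv := by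
    rintro ⟨y, ⟨⟩⟩
    induction y using OnePoint.rec <;> rfl

/-- **`res ∘ cores = 1 + U_q ∘ w`** on `Hom(Γ₀(N q), A)` -/
theorem res_cores_eq {A : Type*} [AddCommGroup A] (ψ : Additive (Gamma0 (N * q)) →+ A) :
    (resSys N q).op A ((coresSys hqN b₀ d₀ hbd).op A ψ)
      = ψ + (uSys (dvd_mul_self_right (N := N) (q := q))).op A ((wSys N q b₀ d₀ hbd).op A ψ) := by
  have hzinv : ∀ x : GL (Fin 2) ℝ, (zq q)⁻¹ * x = x * (zq q)⁻¹ := fun x => by
    rw [eq_mul_inv_iff_mul_eq, mul_assoc, ← zq_comm, ← mul_assoc, inv_mul_cancel, one_mul]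
  have h := CosetSys.op_eq_of_equiv
    (sumSys (idSys embR (Gamma0 (N * q)) (zq q) (zq_comm q))
      ((wSys N q b₀ d₀ hbd).comp (uSys (dvd_mul_self_right (N := N) (q := q)))))
    ((coresSys hqN b₀ d₀ hbd).comp (resSys N q)) embR_injective (eA q) (zq q)⁻¹ hzinv
    (fun _ => 1) ?_ ?_ ψ
  · rw [CosetSys.op_comp] at h
    rw [h, sumSys_op, idSys_op, CosetSys.op_comp]
  · -- representatives
    rintro (⟨⟩ | ⟨⟨⟩, x⟩)
    · show ((dlt q)⁻¹ * embR ((1 : Gamma0 N) : SL(2, ℤ)) * heckeRep q ∞) * 1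
        = (zq q)⁻¹ * embR ((1 : Gamma0 (N * q)) : SL(2, ℤ)) * zq q
      rw [Subgroup.coe_one, Subgroup.coe_one, map_one, heckeRep_infty, mul_one, mul_one, mul_one,
        inv_mul_cancel, inv_mul_cancel]
    · obtain ⟨x, rfl⟩ : ∃ x' : ZMod q, x' = x := ⟨x, rfl⟩
      show ((dlt q)⁻¹ * embR (gamC N q b₀ d₀ hbd) * heckeRep q ((x : ZMod q) : OnePoint (ZMod q))) * 1
        = (zq q)⁻¹ * embR ((1 : Gamma0 (N * q)) : SL(2, ℤ))
          * (wMat N q b₀ d₀ hbd * heckeMatrix q (x : ZMod q).val)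
      rw [Subgroup.coe_one, map_one, mul_one, mul_one, heckeRep_coe, wMat_eq]
      group
  · -- permutations
    rintro g (⟨⟩ | ⟨⟨⟩, x⟩)
    · show (redMatrix q ((degenOne N q g : Gamma0 N) : SL(2, ℤ)) • (∞ : OnePoint (ZMod q)), ())
        = (∞, ())
      rw [degenOne_coe, redMatrix_smul_infty]
    · obtain ⟨x, rfl⟩ : ∃ x' : ZMod q, x' = x := ⟨x, rfl⟩
      show (redMatrix q ((degenOne N q g : Gamma0 N) : SL(2, ℤ)) • ((x : ZMod q) : OnePoint (ZMod q)),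
          ()) = (((sigU (dvd_mul_self_right (N := N) (q := q)) g (x : ZMod q) : ZMod q) :
            OnePoint (ZMod q)), ())
      rw [degenOne_coe, redMatrix_smul_coe]

/-- `γ'' = γ'_∞ γ₁⁻¹ = (q d₀² − N b₀, b₀ (1 − d₀); N q (d₀ − 1), q − N b₀) ∈ Γ₀(N q)` -/
def gamAL (N q : ℕ) (b₀ d₀ : ℤ) (hbd : (q : ℤ) * d₀ - N * b₀ = 1) : SL(2, ℤ) :=
  mkZ ((q : ℤ) * d₀ ^ 2 - N * b₀) (b₀ * (1 - d₀)) ((N : ℤ) * q * (d₀ - 1)) ((q : ℤ) - N * b₀)
    (by linear_combination ((q : ℤ) * d₀ - N * b₀ + 1) * hbd)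

theorem gamAL_mem : gamAL N q b₀ d₀ hbd ∈ Gamma0 (N * q) :=
  mem_Gamma0_of_dvd (by
    show ((N * q : ℕ) : ℤ) ∣ (N : ℤ) * q * (d₀ - 1)
    push_cast
    exact Dvd.intro _ rfl)

theorem gamAL_mul_gamW :
    gamAL N q b₀ d₀ hbd * gamW N q b₀ d₀ hbd = gamD N q b₀ d₀ hbd := by
  apply Subtype.ext
  rw [Matrix.SpecialLinearGroup.coe_mul]
  ext i j
  fin_cases i <;> fin_cases j <;>
    simp [gamAL, gamW, gamD, mkZ, Matrix.mul_apply, Fin.sum_univ_two]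
  · linear_combination d₀ * hbd
  · linear_combination b₀ * hbd
  · linear_combination (N : ℤ) * hbd
  · linear_combination (q : ℤ) * hbd

/-- index bijection for `res ∘ cores_δ = U_q + w` -/
def eB (q : ℕ) : ZMod q ⊕ Unit ≃ OnePoint (ZMod q) × Unit where
  toFun := Sum.elim (fun x => ((x : OnePoint (ZMod q)), ())) (fun _ => (∞, ()))
  invFun p := p.1.elim (Sum.inr ()) (fun x => Sum.inl x)
  left_inv := by
    rintro (x | ⟨⟩) <;> rfl
  right_inv := by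
    rintro ⟨y, ⟨⟩⟩
    induction y using OnePoint.rec <;> rfl

/-- **`res ∘ cores_δ = U_q + w`** on `Hom(Γ₀(N q), A)` -/
theorem res_coresD_eq {A : Type*} [AddCommGroup A] (ψ : Additive (Gamma0 (N * q)) →+ A) :
    (resSys N q).op A ((coresDSys hqN b₀ d₀ hbd).op A ψ)
      = (uSys (dvd_mul_self_right (N := N) (q := q))).op A ψ + (wSys N q b₀ d₀ hbd).op A ψ := by
  have h := CosetSys.op_eq_of_equiv
    (sumSys (uSys (dvd_mul_self_right (N := N) (q := q))) (wSys N q b₀ d₀ hbd))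
    ((coresDSys hqN b₀ d₀ hbd).comp (resSys N q)) embR_injective (eB q) 1
    (fun x => by rw [one_mul, mul_one])
    (Sum.elim (fun _ => 1) (fun _ => ⟨gamAL N q b₀ d₀ hbd, gamAL_mem b₀ d₀ hbd⟩)) ?_ ?_ ψ
  · rw [CosetSys.op_comp] at h
    rw [h, sumSys_op]
  · -- representatives
    rintro (x | ⟨⟩)
    · obtain ⟨x, rfl⟩ : ∃ x' : ZMod q, x' = x := ⟨x, rfl⟩
      show (1 * embR ((1 : Gamma0 N) : SL(2, ℤ)) * heckeRep q ((x : ZMod q) : OnePoint (ZMod q))) * 1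
        = 1 * embR ((1 : Gamma0 (N * q)) : SL(2, ℤ)) * heckeMatrix q (x : ZMod q).val
      rw [Subgroup.coe_one, Subgroup.coe_one, mul_one, heckeRep_coe]
    · show (1 * embR (gamD N q b₀ d₀ hbd) * heckeRep q ∞) * 1
        = 1 * embR (gamAL N q b₀ d₀ hbd) * wMat N q b₀ d₀ hbd
      rw [heckeRep_infty, mul_one, one_mul, one_mul, ← gamAL_mul_gamW b₀ d₀ hbd, map_mul, wMat,
        mul_assoc]
  · -- permutations
    rintro g (x | ⟨⟩)
    · obtain ⟨x, rfl⟩ : ∃ x' : ZMod q, x' = x := ⟨x, rfl⟩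
      show (redMatrix q ((degenOne N q g : Gamma0 N) : SL(2, ℤ)) • ((x : ZMod q) : OnePoint (ZMod q)),
          ()) = (((sigU (dvd_mul_self_right (N := N) (q := q)) g (x : ZMod q) : ZMod q) :
            OnePoint (ZMod q)), ())
      rw [degenOne_coe, redMatrix_smul_coe]
    · show (redMatrix q ((degenOne N q g : Gamma0 N) : SL(2, ℤ)) • (∞ : OnePoint (ZMod q)), ())
        = (∞, ())
      rw [degenOne_coe, redMatrix_smul_infty]

end Identities

/-! ### `U_q² = 1` on `ker β` -/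

section Final

variable {N q : ℕ} [Fact q.Prime] (hqN : ¬ q ∣ N)

/-- **`U_q² = 1` on `ker cores ∩ ker cores_δ`**, on `Hom(Γ₀(N q), A)` for any coefficients. -/
theorem cohU_cohU_eq_of_cores_eq_zero {A : Type*} [AddCommGroup A]
    (ψ : Additive (Gamma0 (N * q)) →+ A)
    (h1 : cores A hqN ψ = 0) (h2 : coresD A hqN ψ = 0) :
    cohU (dvd_mul_self_right (N := N) (q := q)) A
      (cohU (dvd_mul_self_right (N := N) (q := q)) A ψ) = ψ := by
  have hA := res_cores_eq hqN (bez hqN).1 (bez hqN).2 (bez_spec hqN) ψ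
  have hB := res_coresD_eq hqN (bez hqN).1 (bez hqN).2 (bez_spec hqN) ψ
  have h1' : (coresSys hqN (bez hqN).1 (bez hqN).2 (bez_spec hqN)).op A ψ = 0 := h1
  have h2' : (coresDSys hqN (bez hqN).1 (bez hqN).2 (bez_spec hqN)).op A ψ = 0 := h2
  rw [h1', map_zero, uSys_op] at hA
  rw [h2', map_zero, uSys_op] at hB
  have e1 : cohU (dvd_mul_self_right (N := N) (q := q)) A ψ
      = - (wSys N q (bez hqN).1 (bez hqN).2 (bez_spec hqN)).op A ψ :=
    eq_neg_of_add_eq_zero_left hB.symm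
  have e2 : cohU (dvd_mul_self_right (N := N) (q := q)) A
      ((wSys N q (bez hqN).1 (bez hqN).2 (bez_spec hqN)).op A ψ) = -ψ :=
    eq_neg_of_add_eq_zero_right hA.symm
  rw [e1, map_neg, e2, neg_neg]

open Fermat.Agent.GJ.J2.Lat in
/-- **(B5)**: `U_q² = 1` on `ker β ⊆ Λ_{N q}`, in terms of the on-main lattice operator
`latT (N q) q` and helper91's `betaP`. -/
theorem latT_latT_eq_of_betaP_eq_zero [NeZero (N * q)] (hq : q.Prime) (z : Lam (N * q))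
    (hz : betaP ℤ hqN z = 0) :
    latT (N * q) (⟨q, hq⟩ : Nat.Primes) (latT (N * q) (⟨q, hq⟩ : Nat.Primes) z) = z := by
  rw [betaP_apply, Prod.mk_eq_zero] at hz
  have h1 : cores ℤ hqN z.1 = 0 := by
    have := congrArg Subtype.val hz.1
    rwa [coresP_coe] at this
  have h2 : coresD ℤ hqN z.1 = 0 := by
    have := congrArg Subtype.val hz.2
    rwa [coresDP_coe] at this
  apply Subtype.ext
  show cohGen (N * q) ℤ (⟨q, hq⟩ : Nat.Primes) (cohGen (N * q) ℤ (⟨q, hq⟩ : Nat.Primes) z.1) = z.1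
  have hdvd : (((⟨q, hq⟩ : Nat.Primes) : ℕ)) ∣ N * q := dvd_mul_self_right
  rw [cohGen_of_dvd (N * q) ℤ (⟨q, hq⟩ : Nat.Primes) hdvd]
  exact cohU_cohU_eq_of_cores_eq_zero hqN z.1 h1 h2

end Final

end Fermat.Agent.GM.B5
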