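/-
GATE-M / S41-B4-WT (helper85): the Atkin–Lehner operator `w_q` commutes with `T_ℓ`
(`ℓ ∤ N q`) on `Hom(Γ₀(N q), A)`.
-/
import Mathlib
import Fermat.Agent.GM.B.AtkinLehner
import Fermat.Agent.GM.B.EquivCores

set_option autoImplicit false
set_option linter.unusedSectionVars false

open scoped MatrixGroups
open CongruenceSubgroup Matrix Matrix.SpecialLinearGroup ModularCurve.Period
open P2MW.S_ModularForm_heckeT_slash_eq_self_of_mem_Gamma0.ModularForm.HeckeSlashInvariance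
open P2MW.S_ModularForm_heckeT_slash_eq_self_of_mem_Gamma0.ModularForm
open Fermat.Agent.S16_helper49
open Fermat.Agent.GM.Amalgam
open Fermat.Agent.GM.B
open ModularForm
open scoped OnePoint

namespace Fermat.Agent.GM.B5

variable {N q ℓ : ℕ} [Fact q.Prime] [Fact ℓ.Prime]

/-! ### multiplication by `q` on `P¹(𝔽_ℓ)` and `α_{q k} δ = T^m δ α_k` -/

theorem natCast_ne_zero_of_not_dvd_mul (h : ¬ ℓ ∣ N * q) : (q : ZMod ℓ) ≠ 0 := by
  intro h0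
  exact h (dvd_mul_of_dvd_right ((ZMod.natCast_eq_zero_iff q ℓ).mp h0) N)

theorem not_dvd_left_of_not_dvd_mul (h : ¬ ℓ ∣ N * q) : ¬ ℓ ∣ N :=
  fun hd => h (dvd_mul_of_dvd_left hd q)

/-- `x ↦ q x` on `P¹(𝔽_ℓ)` -/
noncomputable def mulQ (hqℓ : (q : ZMod ℓ) ≠ 0) : OnePoint (ZMod ℓ) ≃ OnePoint (ZMod ℓ) :=
  Equiv.optionCongr (Equiv.mulLeft₀ (q : ZMod ℓ) hqℓ)

theorem mulQ_infty (hqℓ : (q : ZMod ℓ) ≠ 0) : mulQ hqℓ (∞ : OnePoint (ZMod ℓ)) = ∞ := rfl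

theorem mulQ_coe (hqℓ : (q : ZMod ℓ) ≠ 0) (k : ZMod ℓ) :
    mulQ hqℓ ((k : ZMod ℓ) : OnePoint (ZMod ℓ)) = (((q : ZMod ℓ) * k : ZMod ℓ) : OnePoint (ZMod ℓ)) :=
  rfl

/-- the translation `(1, m; 0, 1)` -/
def trZ (m : ℤ) : SL(2, ℤ) := mkZ 1 m 0 1 (by ring)

theorem trZ_mem (M : ℕ) (m : ℤ) : trZ m ∈ Gamma0 M := mem_Gamma0_of_dvd (by simp [trZ])

/-- **(F2)** `α_{q x} δ = T^m δ α_x` -/
theorem heckeRep_mulQ_mul_dlt (hqℓ : (q : ZMod ℓ) ≠ 0) (x : OnePoint (ZMod ℓ)) :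
    ∃ m : ℤ, heckeRep ℓ (mulQ hqℓ x) * dlt q = embR (trZ m) * (dlt q * heckeRep ℓ x) := by
  have hq : q ≠ 0 := q_ne_zero'
  have hℓ : ℓ ≠ 0 := (Fact.out : ℓ.Prime).ne_zero
  induction x using OnePoint.rec with
  | infty =>
    refine ⟨0, ?_⟩
    rw [mulQ_infty, heckeRep_infty]
    ext a b
    fin_cases a <;> fin_cases b <;>
      (simp [hq, hℓ, trZ, Matrix.mul_apply, Fin.sum_univ_two]; try ring)
  | coe k =>
    obtain ⟨m, hm⟩ : ∃ m : ℤ, ((((q : ZMod ℓ) * k : ZMod ℓ).val : ℤ)) = q * k.val + m * ℓ := by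
      have h0 : (((((q : ZMod ℓ) * k : ZMod ℓ).val : ℤ) - q * k.val : ℤ) : ZMod ℓ) = 0 := by
        push_cast
        rw [ZMod.natCast_zmod_val, ZMod.natCast_zmod_val]
        ring
      obtain ⟨m, hm⟩ := (ZMod.intCast_zmod_eq_zero_iff_dvd _ _).mp h0
      exact ⟨m, by linarith⟩
    refine ⟨m, ?_⟩
    have hmR : ((((q : ZMod ℓ) * k : ZMod ℓ).val : ℝ)) = q * k.val + m * ℓ := by exact_mod_cast hm
    rw [mulQ_coe, heckeRep_coe, heckeRep_coe]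
    ext a b
    fin_cases a <;> fin_cases b <;>
      (simp [hq, hℓ, trZ, Matrix.mul_apply, Fin.sum_univ_two, hmR]; try ring)

/-! ### entries -/

theorem heckeRep_val (x : OnePoint (ZMod ℓ)) :
    ∃ a b d : ℤ, (d = 1 ∨ d = ℓ) ∧
      ((heckeRep ℓ x : GL (Fin 2) ℝ) : Matrix (Fin 2) (Fin 2) ℝ) = !![(a : ℝ), (b : ℝ); 0, (d : ℝ)] := by
  have hℓ : ℓ ≠ 0 := (Fact.out : ℓ.Prime).ne_zero
  induction x using OnePoint.rec with
  | infty =>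
    refine ⟨ℓ, 0, 1, Or.inl rfl, ?_⟩
    rw [heckeRep_infty, val_heckeDiagMatrix hℓ]
    simp
  | coe k =>
    refine ⟨1, k.val, ℓ, Or.inr rfl, ?_⟩
    rw [heckeRep_coe, val_heckeMatrix hℓ]
    simp

theorem wMat_val (hqN : ¬ q ∣ N) :
    ((wMat hqN : GL (Fin 2) ℝ) : Matrix (Fin 2) (Fin 2) ℝ)
      = !![(q : ℝ), ((bez hqN).1 : ℝ); (N : ℝ) * q, ((bez hqN).2 : ℝ) * q] := by
  have hq : q ≠ 0 := q_ne_zero'
  unfold wMat
  rw [rZero_coe]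
  ext a b
  fin_cases a <;> fin_cases b <;>
    simp [hq, repC, Matrix.mul_apply, Fin.sum_univ_two]

/-- **(F4)** the entry lemma: `κ ∈ Γ₀(N)` with `α_{x'} W = κ W α_x` lies in `Γ₀(N q)` -/
theorem mem_Gamma0_mul_of_wMat_rel (hqN : ¬ q ∣ N) (h : ¬ ℓ ∣ N * q) (κ : Gamma0 N)
    (x x' : OnePoint (ZMod ℓ))
    (hrel : heckeRep ℓ x' * wMat hqN = embR (κ : SL(2, ℤ)) * (wMat hqN * heckeRep ℓ x)) :
    (κ : SL(2, ℤ)) ∈ Gamma0 (N * q) := by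
  obtain ⟨a, b, d, hd, hx⟩ := heckeRep_val (ℓ := ℓ) x
  obtain ⟨a', b', d', -, hx'⟩ := heckeRep_val (ℓ := ℓ) x'
  have hW := wMat_val hqN
  have hbd := bez_spec hqN
  have h11 := congrArg (fun M : GL (Fin 2) ℝ => (M : Matrix (Fin 2) (Fin 2) ℝ) 1 1) hrel
  simp only [Matrix.GeneralLinearGroup.coe_mul, hx, hx', hW, Matrix.mul_apply, Fin.sum_univ_two]
    at h11
  simp at h11
  have hZ : (κ : SL(2, ℤ)) 1 0 * (bez hqN).1 * d
      = q * (d' * (bez hqN).2 - (κ : SL(2, ℤ)) 1 0 * b - (κ : SL(2, ℤ)) 1 1 * N * b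
          - (κ : SL(2, ℤ)) 1 1 * (bez hqN).2 * d) := by
    have : (((κ : SL(2, ℤ)) 1 0 * (bez hqN).1 * d : ℤ) : ℝ)
      = ((q * (d' * (bez hqN).2 - (κ : SL(2, ℤ)) 1 0 * b - (κ : SL(2, ℤ)) 1 1 * N * b
          - (κ : SL(2, ℤ)) 1 1 * (bez hqN).2 * d) : ℤ) : ℝ) := by
      push_cast
      linear_combination -h11
    exact_mod_cast this
  have hqp : Prime (q : ℤ) := Nat.prime_iff_prime_int.mp Fact.out
  have hdvd : (q : ℤ) ∣ (κ : SL(2, ℤ)) 1 0 * (bez hqN).1 * d := ⟨_, hZ⟩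
  have hq10 : (q : ℤ) ∣ (κ : SL(2, ℤ)) 1 0 := by
    rcases hqp.dvd_or_dvd hdvd with h1 | h1
    · rcases hqp.dvd_or_dvd h1 with h2 | h2
      · exact h2
      · exfalso
        have : (q : ℤ) ∣ 1 := by
          rw [← hbd]
          exact dvd_sub (dvd_mul_right _ _) (dvd_mul_of_dvd_right h2 _)
        exact hqp.not_dvd_one this
    · exfalso
      rcases hd with rfl | rfl
      · exact hqp.not_dvd_one h1
      · have h2 : q ∣ ℓ := by exact_mod_cast h1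
        have h3 : q = ℓ := (Nat.prime_dvd_prime_iff_eq Fact.out Fact.out).mp h2
        exact h (h3 ▸ dvd_mul_left q N)
  have hN10 : (N : ℤ) ∣ (κ : SL(2, ℤ)) 1 0 := dvd_of_mem_Gamma0 κ
  have hcop : IsCoprime (N : ℤ) (q : ℤ) := by
    have hcop' : Nat.Coprime q N := (Nat.Prime.coprime_iff_not_dvd Fact.out).mpr hqN
    exact (Nat.isCoprime_iff_coprime.mpr hcop').symm
  apply mem_Gamma0_of_dvd
  push_cast
  exact hcop.mul_dvd hN10 hq10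

/-! ### the relation `α_{x'} W = κ W α_x` -/

/-- the permutation of `P¹(𝔽_ℓ)` induced by `r₀` -/
noncomputable def sigR (hqN : ¬ q ∣ N) : Equiv.Perm (OnePoint (ZMod ℓ)) :=
  MulAction.toPerm (redMatrix ℓ ((rZero hqN : Gamma0 N) : SL(2, ℤ)))

/-- the index map `x ↦ x'` with `α_{x'} W ∈ Γ₀(N q) W α_x` -/
noncomputable def idxW (hqN : ¬ q ∣ N) (hqℓ : (q : ZMod ℓ) ≠ 0) :
    Equiv.Perm (OnePoint (ZMod ℓ)) :=
  (mulQ hqℓ).trans (sigR hqN).symm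

theorem exists_kappa (hqN : ¬ q ∣ N) (h : ¬ ℓ ∣ N * q) (x : OnePoint (ZMod ℓ)) :
    ∃ κ : Gamma0 (N * q),
      heckeRep ℓ (idxW hqN (natCast_ne_zero_of_not_dvd_mul h) x) * wMat hqN
        = embR ((κ : Gamma0 (N * q)) : SL(2, ℤ)) * (wMat hqN * heckeRep ℓ x) := by
  have hqℓ := natCast_ne_zero_of_not_dvd_mul h
  have h' := not_dvd_left_of_not_dvd_mul h
  set x' := idxW hqN hqℓ x with hx'
  have hσ : redMatrix ℓ ((rZero hqN : Gamma0 N) : SL(2, ℤ)) • x' = mulQ hqℓ x := by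
    show sigR hqN ((sigR hqN).symm (mulQ hqℓ x)) = _
    rw [Equiv.apply_symm_apply]
  have h1 := cT_rel h' (rZero hqN) x'
  rw [hσ] at h1
  obtain ⟨m, hm⟩ := heckeRep_mulQ_mul_dlt hqℓ x
  set κ : Gamma0 N := cT h' (rZero hqN) x' * ⟨trZ m, trZ_mem N m⟩ * (rZero hqN)⁻¹ with hκ
  have hrel : heckeRep ℓ x' * wMat hqN
      = embR ((κ : Gamma0 N) : SL(2, ℤ)) * (wMat hqN * heckeRep ℓ x) := by
    have e1 : heckeRep ℓ x' * wMat hqN
        = embR ((cT h' (rZero hqN) x' : Gamma0 N) : SL(2, ℤ)) * (embR (trZ m) * (dlt q * heckeRep ℓ x)) := by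
      rw [← hm, ← mul_assoc, ← h1]
      unfold wMat
      rw [mul_assoc]
    rw [e1, hκ]
    unfold wMat
    simp only [Subgroup.coe_mul, Subgroup.coe_inv, map_mul, map_inv]
    group
  exact ⟨⟨(κ : SL(2, ℤ)), mem_Gamma0_mul_of_wMat_rel hqN h κ x x' hrel⟩, hrel⟩

/-- the chosen `κ_x ∈ Γ₀(N q)` -/
noncomputable def kapW (hqN : ¬ q ∣ N) (h : ¬ ℓ ∣ N * q) (x : OnePoint (ZMod ℓ)) :
    Gamma0 (N * q) := (exists_kappa hqN h x).choose

theorem kapW_spec (hqN : ¬ q ∣ N) (h : ¬ ℓ ∣ N * q) (x : OnePoint (ZMod ℓ)) :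
    heckeRep ℓ (idxW hqN (natCast_ne_zero_of_not_dvd_mul h) x) * wMat hqN
      = embR ((kapW hqN h x : Gamma0 (N * q)) : SL(2, ℤ)) * (wMat hqN * heckeRep ℓ x) :=
  (exists_kappa hqN h x).choose_spec

/-! ### the commutation -/

/-- right multiplication by a single representative keeps the cosets distinct -/
theorem distinct_comp_single {H G : Type*} [Group H] [Group G] {emb : H →* G}
    {Γ₁ Γ₂ Γ₃ : Subgroup H} (S : CosetSys emb Γ₁ Γ₂) (hS : S.Distinct) (a : G) (c : Γ₃ →* Γ₂)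
    (hc : ∀ g : Γ₃, a * emb (g : H) = emb ((c g : Γ₂) : H) * a) :
    (S.comp (CosetSys.single emb a c hc)).Distinct := by
  rintro ⟨i, u⟩ ⟨j, v⟩ γ hij
  have hij' : S.a i * a = emb ((γ : Γ₁) : H) * (S.a j * a) := hij
  rw [← mul_assoc] at hij'
  have := hS i j γ (mul_right_cancel hij')
  subst this
  rfl

/-- **`w_q ∘ T_ℓ = T_ℓ ∘ w_q`** on `Hom(Γ₀(N q), A)`, from the distinctness of the Hecke cosets -/
theorem wOp_cohT_of_distinct (hqN : ¬ q ∣ N) (h : ¬ ℓ ∣ N * q) (hD : (heckeSys h).Distinct)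
    {A : Type*} [AddCommGroup A] (z : Additive (Gamma0 (N * q)) →+ A) :
    wOp hqN A (cohT h A z) = cohT h A (wOp hqN A z) := by
  rw [← heckeSys_op]
  unfold wOp
  rw [← CosetSys.op_comp, ← CosetSys.op_comp]
  have hqℓ := natCast_ne_zero_of_not_dvd_mul h
  refine CosetSys.op_eq_of_cosets ((wSys hqN).comp (heckeSys h)) ((heckeSys h).comp (wSys hqN))
    embR_injective (distinct_comp_single (heckeSys h) hD _ _ _)
    ((Equiv.punitProd (OnePoint (ZMod ℓ))).trans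
      ((idxW hqN hqℓ).trans (Equiv.prodPUnit (OnePoint (ZMod ℓ))).symm))
    1 (fun x => by rw [one_mul, mul_one]) (fun p => kapW hqN h p.2) ?_ z
  rintro ⟨u, x⟩
  show heckeRep ℓ (idxW hqN hqℓ x) * wMat hqN
    = 1 * embR ((kapW hqN h x : Gamma0 (N * q)) : SL(2, ℤ)) * (wMat hqN * heckeRep ℓ x)
  rw [one_mul]
  exact kapW_spec hqN h x

/-- **(v) `w_q ∘ T_ℓ = T_ℓ ∘ w_q`** on `Hom(Γ₀(N q), A)` (`ℓ ∤ N q`) -/
theorem wOp_cohT (hqN : ¬ q ∣ N) (h : ¬ ℓ ∣ N * q)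
    {A : Type*} [AddCommGroup A] (z : Additive (Gamma0 (N * q)) →+ A) :
    wOp hqN A (cohT h A z) = cohT h A (wOp hqN A z) :=
  wOp_cohT_of_distinct hqN h (heckeSys_distinct h) z

/-- **(ii) `res_δ` commutes with `T_ℓ`** (`ℓ ∤ N q`) -/
theorem resD_cohT (hqN : ¬ q ∣ N) (h : ¬ ℓ ∣ N * q)
    {A : Type*} [AddCommGroup A] (φ : Additive (Gamma0 N) →+ A) :
    resD A N q (cohT (not_dvd_of_not_dvd_mul h) A φ) = cohT h A (resD A N q φ) := by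
  rw [← wOp_res hqN, ← wOp_res hqN, res_cohT h, wOp_cohT hqN h]

/-- **(iv) `cores_δ` commutes with `T_ℓ`** (`ℓ ∤ N q`) -/
theorem coresD_cohT (hqN : ¬ q ∣ N) (h : ¬ ℓ ∣ N * q)
    {A : Type*} [AddCommGroup A] (ψ : Additive (Gamma0 (N * q)) →+ A) :
    coresD A hqN (cohT h A ψ) = cohT (not_dvd_of_not_dvd_mul h) A (coresD A hqN ψ) := by
  rw [← cores_wOp hqN, ← cores_wOp hqN, wOp_cohT hqN h, cores_cohT hqN h]

end Fermat.Agent.GM.B5
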