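/-
GATE-M / S41-B4 (helper85): the (B4) leaves of the skeleton — `α = alphaP` and `β = betaP` are
equivariant for the lattice Hecke operators `latT · l`, `l ∤ N q`.
-/
import Mathlib
import Fermat.Agent.GM.B5.WT
import Fermat.Agent.GJ.J2.Lattice

set_option autoImplicit false
set_option linter.unusedSectionVars false

open scoped MatrixGroups
open CongruenceSubgroup Matrix Matrix.SpecialLinearGroup ModularCurve.Period
open Fermat.Agent.S16_helper49
open Fermat.Agent.GM.Amalgam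
open Fermat.Agent.GM.B
open Fermat.Agent.GJ.J2.Lat

namespace Fermat.Agent.GM.B5

variable {N q : ℕ} [Fact q.Prime] [NeZero N] [NeZero (N * q)]

/-- **(B4, α)**: `α (T_l x, T_l y) = T_l (α (x, y))` for `l ∤ N q` -/
theorem alphaP_latT (hqN : ¬ q ∣ N) (l : Nat.Primes) (hl : ¬ (l : ℕ) ∣ N * q) (x y : Lam N) :
    alphaP ℤ N q (latT N l x, latT N l y) = latT (N * q) l (alphaP ℤ N q (x, y)) := by
  have : Fact (l : ℕ).Prime := ⟨l.2⟩
  have hlN : ¬ (l : ℕ) ∣ N := not_dvd_of_not_dvd_mul hl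
  rw [alphaP_apply, alphaP_apply]
  apply Subtype.ext
  show res ℤ N q (cohGen N ℤ l x.1) + resD ℤ N q (cohGen N ℤ l y.1)
    = cohGen (N * q) ℤ l (res ℤ N q x.1 + resD ℤ N q y.1)
  rw [cohGen_of_not_dvd N ℤ l hlN, cohGen_of_not_dvd (N * q) ℤ l hl, map_add, res_cohT hl,
    resD_cohT hqN hl]

/-- **(B4, β)**: `β (T_l z) = (T_l (β z).1, T_l (β z).2)` for `l ∤ N q` -/
theorem betaP_latT (hqN : ¬ q ∣ N) (l : Nat.Primes) (hl : ¬ (l : ℕ) ∣ N * q) (z : Lam (N * q)) :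
    betaP ℤ hqN (latT (N * q) l z)
      = (latT N l (betaP ℤ hqN z).1, latT N l (betaP ℤ hqN z).2) := by
  have : Fact (l : ℕ).Prime := ⟨l.2⟩
  have hlN : ¬ (l : ℕ) ∣ N := not_dvd_of_not_dvd_mul hl
  rw [betaP_apply, betaP_apply]
  refine Prod.ext ?_ ?_
  · apply Subtype.ext
    show cores ℤ hqN (cohGen (N * q) ℤ l z.1) = cohGen N ℤ l (cores ℤ hqN z.1)
    rw [cohGen_of_not_dvd N ℤ l hlN, cohGen_of_not_dvd (N * q) ℤ l hl, cores_cohT hqN hl]
  · apply Subtype.ext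
    show coresD ℤ hqN (cohGen (N * q) ℤ l z.1) = cohGen N ℤ l (coresD ℤ hqN z.1)
    rw [cohGen_of_not_dvd N ℤ l hlN, cohGen_of_not_dvd (N * q) ℤ l hl, coresD_cohT hqN hl]

end Fermat.Agent.GM.B5
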